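/-
P-DIM (S20), subtask DIM-12: bridging between the predicates `IsMF` / `IsCF` of
`Fermat.Agent.H19.Defs` and Mathlib's bundled `ModularForm` / `CuspForm`, basic closure
properties, and finite-dimensionality.
-/
import Mathlib.NumberTheory.ModularForms.NormTrace
import Mathlib.NumberTheory.ModularForms.LevelOne.DimensionFormula
import Fermat.Prelude.Thm_ModularForm_sturm_bound_Gamma0
import Fermat.Prelude.Thm_CongruenceSubgroup_one_mem_strictPeriods_Gamma0
import Fermat.Agent.H19.Defs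

set_option autoImplicit false

namespace Fermat.Agent.H7

open UpperHalfPlane ModularForm CongruenceSubgroup Fermat.Agent.H19
open scoped MatrixGroups Manifold

variable {N : ℕ} {k m : ℤ} {φ ψ g : ℍ → ℂ}

/-! ### Bridging -/

/-- The bundled modular form attached to an `IsMF` function. -/
noncomputable def toModularForm [NeZero N] (h : IsMF N k φ) : ModularForm (Gamma0 N) k where
  toFun := φ
  slash_action_eq' := by
    rintro γ ⟨γ', hγ', rfl⟩
    exact h.inv γ' hγ'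
  holo' := h.holo
  bdd_at_cusps' := by
    intro c hc
    rw [Subgroup.IsArithmetic.isCusp_iff_isCusp_SL2Z] at hc
    rw [OnePoint.isBoundedAt_iff_forall_SL2Z hc]
    intro γ _
    exact h.bdd γ

@[simp] theorem coe_toModularForm [NeZero N] (h : IsMF N k φ) : ⇑(toModularForm h) = φ := rfl

/-- The bundled cusp form attached to an `IsCF` function. -/
noncomputable def toCuspForm [NeZero N] (h : IsCF N k φ) : CuspForm (Gamma0 N) k where
  toFun := φ
  slash_action_eq' := by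
    rintro γ ⟨γ', hγ', rfl⟩
    exact h.inv γ' hγ'
  holo' := h.holo
  zero_at_cusps' := by
    intro c hc
    rw [Subgroup.IsArithmetic.isCusp_iff_isCusp_SL2Z] at hc
    rw [OnePoint.isZeroAt_iff_forall_SL2Z hc]
    intro γ _
    exact h.zero γ

@[simp] theorem coe_toCuspForm [NeZero N] (h : IsCF N k φ) : ⇑(toCuspForm h) = φ := rfl

theorem isMF_coe [NeZero N] (F : ModularForm (Gamma0 N) k) : IsMF N k ⇑F where
  holo := F.holo'
  inv γ hγ := F.slash_action_eq' _ ⟨γ, hγ, rfl⟩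
  bdd γ := ModularFormClass.bdd_at_infty_slash F γ

theorem isCF_coe [NeZero N] (F : CuspForm (Gamma0 N) k) : IsCF N k ⇑F where
  holo := F.holo'
  inv γ hγ := F.slash_action_eq' _ ⟨γ, hγ, rfl⟩
  zero γ := CuspFormClass.zero_at_infty_slash F γ

theorem isMF_iff (N : ℕ) [NeZero N] (k : ℤ) (φ : ℍ → ℂ) :
    IsMF N k φ ↔ ∃ F : ModularForm (Gamma0 N) k, ⇑F = φ :=
  ⟨fun h => ⟨toModularForm h, rfl⟩, fun ⟨F, hF⟩ => hF ▸ isMF_coe F⟩

theorem isCF_iff (N : ℕ) [NeZero N] (k : ℤ) (φ : ℍ → ℂ) :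
    IsCF N k φ ↔ ∃ F : CuspForm (Gamma0 N) k, ⇑F = φ :=
  ⟨fun h => ⟨toCuspForm h, rfl⟩, fun ⟨F, hF⟩ => hF ▸ isCF_coe F⟩


/-! ### Level one -/

theorem mem_Gamma0_one (γ : SL(2, ℤ)) : γ ∈ Gamma0 1 := by
  rw [Gamma0_mem]
  exact Subsingleton.elim _ _

theorem isMF_one_coe (F : ModularForm 𝒮ℒ k) : IsMF 1 k ⇑F where
  holo := F.holo'
  inv γ _ := F.slash_action_eq' _ ⟨γ, rfl⟩
  bdd γ := ModularFormClass.bdd_at_infty_slash F γ

theorem isCF_one_coe (F : CuspForm 𝒮ℒ k) : IsCF 1 k ⇑F where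
  holo := F.holo'
  inv γ _ := F.slash_action_eq' _ ⟨γ, rfl⟩
  zero γ := CuspFormClass.zero_at_infty_slash F γ

/-- The bundled level one modular form attached to an `IsMF 1` function. -/
noncomputable def toModularFormOne (h : IsMF 1 k φ) : ModularForm 𝒮ℒ k where
  toFun := φ
  slash_action_eq' := by
    rintro γ ⟨γ', rfl⟩
    exact h.inv γ' (mem_Gamma0_one γ')
  holo' := h.holo
  bdd_at_cusps' := by
    intro c hc
    rw [OnePoint.isBoundedAt_iff_forall_SL2Z hc]
    intro γ _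
    exact h.bdd γ

@[simp] theorem coe_toModularFormOne (h : IsMF 1 k φ) : ⇑(toModularFormOne h) = φ := rfl

/-- The bundled level one cusp form attached to an `IsCF 1` function. -/
noncomputable def toCuspFormOne (h : IsCF 1 k φ) : CuspForm 𝒮ℒ k where
  toFun := φ
  slash_action_eq' := by
    rintro γ ⟨γ', rfl⟩
    exact h.inv γ' (mem_Gamma0_one γ')
  holo' := h.holo
  zero_at_cusps' := by
    intro c hc
    rw [OnePoint.isZeroAt_iff_forall_SL2Z hc]
    intro γ _
    exact h.zero γ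

@[simp] theorem coe_toCuspFormOne (h : IsCF 1 k φ) : ⇑(toCuspFormOne h) = φ := rfl

theorem isMF_one_iff (k : ℤ) (φ : ℍ → ℂ) :
    IsMF 1 k φ ↔ ∃ F : ModularForm 𝒮ℒ k, ⇑F = φ :=
  ⟨fun h => ⟨toModularFormOne h, rfl⟩, fun ⟨F, hF⟩ => hF ▸ isMF_one_coe F⟩

theorem isCF_one_iff (k : ℤ) (φ : ℍ → ℂ) :
    IsCF 1 k φ ↔ ∃ F : CuspForm 𝒮ℒ k, ⇑F = φ :=
  ⟨fun h => ⟨toCuspFormOne h, rfl⟩, fun ⟨F, hF⟩ => hF ▸ isCF_one_coe F⟩

/-- A level one form is a form of every level. -/
theorem IsMF.of_levelOne (N : ℕ) (h : IsMF 1 k φ) : IsMF N k φ where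
  holo := h.holo
  inv γ _ := h.inv γ (mem_Gamma0_one γ)
  bdd := h.bdd

/-- A level one cusp form is a cusp form of every level. -/
theorem IsCF.of_levelOne (N : ℕ) (h : IsCF 1 k φ) : IsCF N k φ where
  holo := h.holo
  inv γ _ := h.inv γ (mem_Gamma0_one γ)
  zero := h.zero

/-! ### Closure properties -/

theorem IsCF.isMF (h : IsCF N k φ) : IsMF N k φ where
  holo := h.holo
  inv := h.inv
  bdd γ := (h.zero γ).isBoundedAtImInfty

theorem IsMF.zero : IsMF N k (0 : ℍ → ℂ) where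
  holo := mdifferentiable_const
  inv γ _ := SlashAction.zero_slash _ _
  bdd γ := by
    rw [SlashAction.zero_slash]
    exact zero_form_isBoundedAtImInfty

theorem IsCF.zero : IsCF N k (0 : ℍ → ℂ) where
  holo := mdifferentiable_const
  inv γ _ := SlashAction.zero_slash _ _
  zero γ := by
    rw [SlashAction.zero_slash]
    exact Filter.zero_zeroAtFilter _

theorem IsMF.add (hφ : IsMF N k φ) (hψ : IsMF N k ψ) : IsMF N k (φ + ψ) where
  holo := hφ.holo.add hψ.holo
  inv γ hγ := by rw [SlashAction.add_slash, hφ.inv γ hγ, hψ.inv γ hγ]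
  bdd γ := by
    rw [SlashAction.add_slash]
    exact (hφ.bdd γ).add (hψ.bdd γ)

theorem IsCF.add (hφ : IsCF N k φ) (hψ : IsCF N k ψ) : IsCF N k (φ + ψ) where
  holo := hφ.holo.add hψ.holo
  inv γ hγ := by rw [SlashAction.add_slash, hφ.inv γ hγ, hψ.inv γ hγ]
  zero γ := by
    rw [SlashAction.add_slash]
    exact (hφ.zero γ).add (hψ.zero γ)

theorem IsMF.smul (c : ℂ) (hφ : IsMF N k φ) : IsMF N k (c • φ) where
  holo := hφ.holo.const_smul c
  inv γ hγ := by rw [SL_smul_slash, hφ.inv γ hγ]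
  bdd γ := by
    rw [SL_smul_slash]
    exact (hφ.bdd γ).smul c

theorem IsCF.smul (c : ℂ) (hφ : IsCF N k φ) : IsCF N k (c • φ) where
  holo := hφ.holo.const_smul c
  inv γ hγ := by rw [SL_smul_slash, hφ.inv γ hγ]
  zero γ := by
    rw [SL_smul_slash]
    exact (hφ.zero γ).smul c

theorem IsMF.neg (hφ : IsMF N k φ) : IsMF N k (-φ) := by
  have := IsMF.smul (-1) hφ
  simpa using this

theorem IsCF.neg (hφ : IsCF N k φ) : IsCF N k (-φ) := by
  have := IsCF.smul (-1) hφ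
  simpa using this

theorem IsMF.sub (hφ : IsMF N k φ) (hψ : IsMF N k ψ) : IsMF N k (φ - ψ) := by
  rw [sub_eq_add_neg]
  exact IsMF.add hφ (IsMF.neg hψ)

theorem IsCF.sub (hφ : IsCF N k φ) (hψ : IsCF N k ψ) : IsCF N k (φ - ψ) := by
  rw [sub_eq_add_neg]
  exact IsCF.add hφ (IsCF.neg hψ)

theorem IsMF.mul (hg : IsMF 1 m g) (hφ : IsMF N k φ) : IsMF N (m + k) (g * φ) where
  holo := hg.holo.mul hφ.holo
  inv γ hγ := by rw [mul_slash_SL2, hg.inv γ (mem_Gamma0_one γ), hφ.inv γ hγ]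
  bdd γ := by
    rw [mul_slash_SL2]
    exact (hg.bdd γ).mul (hφ.bdd γ)

theorem IsCF.mul (hg : IsMF 1 m g) (hφ : IsCF N k φ) : IsCF N (m + k) (g * φ) where
  holo := hg.holo.mul hφ.holo
  inv γ hγ := by rw [mul_slash_SL2, hg.inv γ (mem_Gamma0_one γ), hφ.inv γ hγ]
  zero γ := by
    rw [mul_slash_SL2]
    exact (hg.bdd γ).mul_zeroAtFilter (hφ.zero γ)

/-- Product of two forms of the same level. -/
theorem IsMF.mul' (hg : IsMF N m g) (hφ : IsMF N k φ) : IsMF N (m + k) (g * φ) where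
  holo := hg.holo.mul hφ.holo
  inv γ hγ := by rw [mul_slash_SL2, hg.inv γ hγ, hφ.inv γ hγ]
  bdd γ := by
    rw [mul_slash_SL2]
    exact (hg.bdd γ).mul (hφ.bdd γ)

theorem IsMF.const (N : ℕ) (c : ℂ) : IsMF N 0 (fun _ => c) where
  holo := mdifferentiable_const
  inv γ _ := is_invariant_const γ c
  bdd γ := by
    have h : (fun _ : ℍ => c) ∣[(0 : ℤ)] γ = Function.const ℍ c := is_invariant_const γ c
    rw [h]
    exact Filter.const_boundedAtFilter _ c

/-- Changing the weight along an equality. -/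
theorem IsMF.weight_cast {k' : ℤ} (h : k = k') (hφ : IsMF N k φ) : IsMF N k' φ := h ▸ hφ

theorem IsCF.weight_cast {k' : ℤ} (h : k = k') (hφ : IsCF N k φ) : IsCF N k' φ := h ▸ hφ

/-! ### Vanishing in small weight -/

theorem IsMF.eq_zero_of_neg [NeZero N] (hk : k < 0) (hφ : IsMF N k φ) : φ = 0 := by
  have h := ModularForm.isZero_of_neg_weight hk (toModularForm hφ)
  have h2 := congrArg (fun F : ModularForm (Gamma0 N) k => (⇑F : ℍ → ℂ)) h
  simpa using h2

theorem IsMF.eq_const_of_weight_zero [NeZero N] (hφ : IsMF N 0 φ) :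
    ∃ c : ℂ, φ = fun _ => c := by
  obtain ⟨c, hc⟩ := ModularForm.eq_const_of_weight_zero (toModularForm hφ)
  exact ⟨c, hc⟩

theorem neg_one_mem_Gamma0 (N : ℕ) : (-1 : SL(2, ℤ)) ∈ Gamma0 N := by
  rw [Gamma0_mem]
  simp

theorem IsMF.eq_zero_of_odd [NeZero N] (hk : Odd k) (hφ : IsMF N k φ) : φ = 0 := by
  have hmem : (-1 : GL (Fin 2) ℝ) ∈ ((Gamma0 N : Subgroup SL(2, ℤ)) : Subgroup (GL (Fin 2) ℝ)) :=
    ⟨-1, neg_one_mem_Gamma0 N, by ext; simp⟩
  have h := ModularForm.eq_zero_of_neg_one_mem hmem hk (toModularForm hφ)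
  have h2 := congrArg (fun F : ModularForm (Gamma0 N) k => (⇑F : ℍ → ℂ)) h
  simpa using h2

theorem IsCF.eq_zero_of_nonpos [NeZero N] (hk : k ≤ 0) (hφ : IsCF N k φ) : φ = 0 := by
  rcases hk.lt_or_eq with h | h
  · exact IsMF.eq_zero_of_neg h (IsCF.isMF hφ)
  · subst h
    obtain ⟨c, hc⟩ := IsMF.eq_const_of_weight_zero (IsCF.isMF hφ)
    have hz : IsZeroAtImInfty φ := by
      have := hφ.zero 1
      simpa using this
    rw [hc] at hz
    have hc0 : c = 0 := by
      have h1 : Filter.Tendsto (fun _ : ℍ => c) atImInfty (nhds c) := tendsto_const_nhds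
      exact tendsto_nhds_unique h1 hz
    rw [hc, hc0]
    rfl


/-! ### The submodules of modular / cusp forms inside `ℍ → ℂ` -/

/-- The space of modular forms of weight `k` on `Γ₀(N)`, as a submodule of `ℍ → ℂ`. -/
def MFsub (N : ℕ) (k : ℤ) : Submodule ℂ (ℍ → ℂ) where
  carrier := {φ | IsMF N k φ}
  zero_mem' := IsMF.zero
  add_mem' := fun ha hb => IsMF.add ha hb
  smul_mem' := fun c _ h => IsMF.smul c h

/-- The space of cusp forms of weight `k` on `Γ₀(N)`, as a submodule of `ℍ → ℂ`. -/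
def CFsub (N : ℕ) (k : ℤ) : Submodule ℂ (ℍ → ℂ) where
  carrier := {φ | IsCF N k φ}
  zero_mem' := IsCF.zero
  add_mem' := fun ha hb => IsCF.add ha hb
  smul_mem' := fun c _ h => IsCF.smul c h

@[simp] theorem mem_MFsub : φ ∈ MFsub N k ↔ IsMF N k φ := Iff.rfl

@[simp] theorem mem_CFsub : φ ∈ CFsub N k ↔ IsCF N k φ := Iff.rfl

theorem CFsub_le_MFsub (N : ℕ) (k : ℤ) : CFsub N k ≤ MFsub N k := fun _ h => IsCF.isMF h

/-- `ModularForm (Gamma0 N) k` is linearly equivalent to `MFsub N k`. -/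
noncomputable def modularFormEquivMFsub (N : ℕ) [NeZero N] (k : ℤ) :
    ModularForm (Gamma0 N) k ≃ₗ[ℂ] MFsub N k where
  toFun F := ⟨⇑F, isMF_coe F⟩
  map_add' _ _ := rfl
  map_smul' _ _ := rfl
  invFun φ := toModularForm φ.2
  left_inv _ := rfl
  right_inv _ := rfl

/-- `CuspForm (Gamma0 N) k` is linearly equivalent to `CFsub N k`. -/
noncomputable def cuspFormEquivCFsub (N : ℕ) [NeZero N] (k : ℤ) :
    CuspForm (Gamma0 N) k ≃ₗ[ℂ] CFsub N k where
  toFun F := ⟨⇑F, isCF_coe F⟩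
  map_add' _ _ := rfl
  map_smul' _ _ := rfl
  invFun φ := toCuspForm φ.2
  left_inv _ := rfl
  right_inv _ := rfl

/-- `ModularForm 𝒮ℒ k` is linearly equivalent to `MFsub 1 k`. -/
noncomputable def modularFormOneEquivMFsub (k : ℤ) :
    ModularForm 𝒮ℒ k ≃ₗ[ℂ] MFsub 1 k where
  toFun F := ⟨⇑F, isMF_one_coe F⟩
  map_add' _ _ := rfl
  map_smul' _ _ := rfl
  invFun φ := toModularFormOne φ.2
  left_inv _ := rfl
  right_inv _ := rfl

/-- `CuspForm 𝒮ℒ k` is linearly equivalent to `CFsub 1 k`. -/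
noncomputable def cuspFormOneEquivCFsub (k : ℤ) :
    CuspForm 𝒮ℒ k ≃ₗ[ℂ] CFsub 1 k where
  toFun F := ⟨⇑F, isCF_one_coe F⟩
  map_add' _ _ := rfl
  map_smul' _ _ := rfl
  invFun φ := toCuspFormOne φ.2
  left_inv _ := rfl
  right_inv _ := rfl

/-! ### Finite-dimensionality (from the Sturm bound of the prelude) -/

theorem one_mem_strictPeriods_Gamma0 (N : ℕ) :
    (1 : ℝ) ∈ ((Gamma0 N : Subgroup SL(2, ℤ)) : Subgroup (GL (Fin 2) ℝ)).strictPeriods :=
  CongruenceSubgroup.one_mem_strictPeriods_Gamma0 N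

/-- The first `B + 1` `q`-coefficients of a modular form, as a linear map. -/
noncomputable def qTrunc (N : ℕ) (k : ℤ) (B : ℕ) :
    ModularForm (Gamma0 N) k →ₗ[ℂ] (Fin (B + 1) → ℂ) where
  toFun f i := (qExpansion 1 f).coeff i
  map_add' f g := by
    funext i
    have h : (⇑(f + g) : ℍ → ℂ) = ⇑f + ⇑g := rfl
    rw [h, ModularForm.qExpansion_add one_pos (one_mem_strictPeriods_Gamma0 N) f g]
    simp
  map_smul' c f := by
    funext i
    have h : (⇑(c • f) : ℍ → ℂ) = c • ⇑f := rfl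
    rw [h, ModularForm.qExpansion_smul one_pos (one_mem_strictPeriods_Gamma0 N) c f]
    simp

theorem qTrunc_injective (N : ℕ) [NeZero N] (k : ℤ) :
    Function.Injective (qTrunc N k ((k * (Gamma0 N).index).toNat / 12)) := by
  rw [← LinearMap.ker_eq_bot, LinearMap.ker_eq_bot']
  intro f hf
  refine ModularForm.sturm_bound_Gamma0 N f ?_
  intro n hn
  exact congrFun hf ⟨n, Nat.lt_succ_of_le hn⟩

theorem finiteDimensional_modularForm_Gamma0 (N : ℕ) [NeZero N] (k : ℤ) :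
    FiniteDimensional ℂ (ModularForm (Gamma0 N) k) :=
  FiniteDimensional.of_injective _ (qTrunc_injective N k)

theorem finiteDimensional_MFsub (N : ℕ) [NeZero N] (k : ℤ) :
    FiniteDimensional ℂ (MFsub N k) :=
  haveI := finiteDimensional_modularForm_Gamma0 N k
  (modularFormEquivMFsub N k).finiteDimensional

theorem finiteDimensional_CFsub (N : ℕ) [NeZero N] (k : ℤ) :
    FiniteDimensional ℂ (CFsub N k) :=
  haveI := finiteDimensional_MFsub N k
  Submodule.finiteDimensional_of_le (CFsub_le_MFsub N k)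

theorem finiteDimensional_cuspForm_Gamma0 (N : ℕ) [NeZero N] (k : ℤ) :
    FiniteDimensional ℂ (CuspForm (Gamma0 N) k) :=
  haveI := finiteDimensional_CFsub N k
  (cuspFormEquivCFsub N k).symm.finiteDimensional

theorem finrank_modularForm_eq (N : ℕ) [NeZero N] (k : ℤ) :
    Module.finrank ℂ (ModularForm (Gamma0 N) k) = Module.finrank ℂ (MFsub N k) :=
  (modularFormEquivMFsub N k).finrank_eq

theorem finrank_cuspForm_eq (N : ℕ) [NeZero N] (k : ℤ) :
    Module.finrank ℂ (CuspForm (Gamma0 N) k) = Module.finrank ℂ (CFsub N k) :=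
  (cuspFormEquivCFsub N k).finrank_eq

theorem finrank_levelOne_eq (k : ℤ) :
    Module.finrank ℂ (ModularForm 𝒮ℒ k) = Module.finrank ℂ (MFsub 1 k) :=
  (modularFormOneEquivMFsub k).finrank_eq

theorem finrank_levelOne_cusp_eq (k : ℤ) :
    Module.finrank ℂ (CuspForm 𝒮ℒ k) = Module.finrank ℂ (CFsub 1 k) :=
  (cuspFormOneEquivCFsub k).finrank_eq

end Fermat.Agent.H7
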