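/-
P-S14 / C6-A: `EigenModStatement` (linear algebra mod `p` on a free `ℤ`-module of finite rank).
-/
import Fermat.Agent.H48.S14UnitInterfaces

set_option autoImplicit false

namespace Fermat.Agent.H7

open TensorProduct Module

/-- The kernel of `x ↦ 1 ⊗ x : Λ → (ZMod p) ⊗ Λ` is `pΛ`. -/
theorem one_tmul_eq_zero_imp {Λ : Type} [AddCommGroup Λ] [Module.Free ℤ Λ] [Module.Finite ℤ Λ]
    (p : ℕ) [Fact p.Prime] (x : Λ) (hx : (1 : ZMod p) ⊗ₜ[ℤ] x = 0) :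
    ∃ z : Λ, x = p • z := by
  classical
  let b := Module.Free.chooseBasis ℤ Λ
  have h := congrArg (Algebra.TensorProduct.basis (ZMod p) b).repr hx
  rw [Algebra.TensorProduct.basis_repr_tmul, one_smul, map_zero] at h
  have hdvd : ∀ i, (p : ℤ) ∣ b.repr x i := by
    intro i
    have hi := DFunLike.congr_fun h i
    simp only [Finsupp.mapRange_apply, Finsupp.coe_zero, Pi.zero_apply] at hi
    have : ((b.repr x i : ℤ) : ZMod p) = 0 := by simpa using hi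
    exact (ZMod.intCast_zmod_eq_zero_iff_dvd _ _).mp this
  choose c hc using hdvd
  refine ⟨∑ i, c i • b i, ?_⟩
  conv_lhs => rw [← b.sum_repr x]
  rw [Finset.smul_sum]
  refine Finset.sum_congr rfl fun i _ => ?_
  rw [hc i, mul_smul, natCast_zsmul]

/-- **C6-A**: `EigenModStatement`. -/
theorem eigenMod : Fermat.Agent.H48.EigenModStatement := by
  intro Λ _ _ _ p _ T a hmult x y hx hy hyne
  classical
  obtain ⟨zx, hzx⟩ := hx
  obtain ⟨zy, hzy⟩ := hy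
  have hp0 : ((p : ℕ) : ZMod p) = 0 := ZMod.natCast_self p
  -- base change
  let Tbar : (ZMod p ⊗[ℤ] Λ) →ₗ[ZMod p] (ZMod p ⊗[ℤ] Λ) := T.baseChange (ZMod p)
  have hchar : Tbar.charpoly = T.charpoly.map (Int.castRingHom (ZMod p)) := by
    exact LinearMap.charpoly_baseChange (A := ZMod p) T
  have hfin : finrank (ZMod p) (Module.End.eigenspace Tbar (a : ZMod p)) ≤ 1 := by
    refine (LinearMap.finrank_eigenspace_le Tbar (a : ZMod p)).trans ?_
    rw [hchar]; exact hmult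
  -- a general element of the form `1 ⊗ v` with `T v = a v + p w` is an eigenvector
  have hmem : ∀ v w : Λ, T v = a • v + p • w →
      (1 : ZMod p) ⊗ₜ[ℤ] v ∈ Module.End.eigenspace Tbar (a : ZMod p) := by
    intro v w hvw
    rw [Module.End.mem_eigenspace_iff]
    show T.baseChange (ZMod p) ((1 : ZMod p) ⊗ₜ[ℤ] v) = _
    rw [LinearMap.baseChange_tmul, hvw, TensorProduct.tmul_add, TensorProduct.tmul_smul,
      TensorProduct.tmul_smul]
    have h1 : (p : ℕ) • ((1 : ZMod p) ⊗ₜ[ℤ] w) = 0 := by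
      rw [TensorProduct.smul_tmul', nsmul_eq_mul, mul_one, hp0, TensorProduct.zero_tmul]
    rw [h1, add_zero]
    exact (Int.cast_smul_eq_zsmul (ZMod p) a ((1 : ZMod p) ⊗ₜ[ℤ] v)).symm
  have hxm := hmem x zx hzx
  have hym := hmem y zy hzy
  have hyb : (1 : ZMod p) ⊗ₜ[ℤ] y ≠ 0 := by
    intro h0
    obtain ⟨z, hz⟩ := one_tmul_eq_zero_imp p y h0
    exact hyne z hz
  -- the eigenspace is at most one-dimensional
  obtain ⟨v, hv⟩ := finrank_le_one_iff.mp hfin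
  obtain ⟨c₁, hc₁⟩ := hv ⟨_, hym⟩
  obtain ⟨c₂, hc₂⟩ := hv ⟨_, hxm⟩
  have hc₁0 : c₁ ≠ 0 := by
    rintro rfl
    rw [zero_smul] at hc₁
    exact hyb (congrArg Subtype.val hc₁).symm
  have hc₁' : c₁ • (v : ZMod p ⊗[ℤ] Λ) = (1 : ZMod p) ⊗ₜ[ℤ] y := congrArg Subtype.val hc₁
  have hc₂' : c₂ • (v : ZMod p ⊗[ℤ] Λ) = (1 : ZMod p) ⊗ₜ[ℤ] x := congrArg Subtype.val hc₂
  have hxy : (1 : ZMod p) ⊗ₜ[ℤ] x = (c₂ * c₁⁻¹) • ((1 : ZMod p) ⊗ₜ[ℤ] y) := by
    rw [← hc₁', ← hc₂', smul_smul, mul_assoc, inv_mul_cancel₀ hc₁0, mul_one]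
  set j : ℕ := (c₂ * c₁⁻¹).val with hj
  have hjc : ((j : ℕ) : ZMod p) = c₂ * c₁⁻¹ := by
    rw [hj]; exact ZMod.natCast_zmod_val _
  have hzero : (1 : ZMod p) ⊗ₜ[ℤ] (x - j • y) = 0 := by
    rw [TensorProduct.tmul_sub, TensorProduct.tmul_smul, hxy, sub_eq_zero]
    rw [← hjc, Nat.cast_smul_eq_nsmul]
  obtain ⟨z, hz⟩ := one_tmul_eq_zero_imp p (x - j • y) hzero
  exact ⟨j, z, by rw [← hz]; abel⟩

end Fermat.Agent.H7
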