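/-
P-GENUS (S24), GEN-11 part (4): the function field `ℚ̄(X₀(N))` (prelude `modularFunctionFieldBar N`)
is the fraction field of the subalgebra `Rsub N` generated by the `j(q^d)`, `d ∣ N`.
-/
import Fermat.Agent.H23.BlueprintAn

set_option autoImplicit false

namespace Fermat.Agent.H7

open IntermediateField Fermat.Agent.H23

/-- The images in `ℚ̄((q))` of the generators `j(q^d)`, `d ∣ N`. -/
def genusGens (N : ℕ) : Set (LaurentSeries (AlgebraicClosure ℚ)) :=
  {x | ∃ (d : ℕ) (_ : NeZero d), d ∣ N ∧
    x = ModularCurve.coeffEmb (AlgebraicClosure ℚ) (ModularCurve.qExpand ℚ d ModularCurve.jq)}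

/-- The function field is generated over `ℚ̄` by the `j(q^d)`, `d ∣ N`. -/
theorem modularFunctionFieldBar_eq_adjoin (N : ℕ) :
    ModularCurve.modularFunctionFieldBar N = adjoin (AlgebraicClosure ℚ) (genusGens N) := by
  apply le_antisymm
  · -- `coeffEmb '' F₀ ⊆ adjoin ℚ̄ gens`
    change adjoin (AlgebraicClosure ℚ) (⇑(ModularCurve.coeffEmb (AlgebraicClosure ℚ)) ''
      (ModularCurve.modularFunctionFieldFull N : Set (LaurentSeries ℚ))) ≤ _
    rw [adjoin_le_iff]
    rintro _ ⟨x, hx, rfl⟩
    -- the preimage subfield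
    let T : IntermediateField ℚ (LaurentSeries ℚ) :=
      { toSubalgebra :=
          { carrier := {y | ModularCurve.coeffEmb (AlgebraicClosure ℚ) y ∈
              adjoin (AlgebraicClosure ℚ) (genusGens N)}
            mul_mem' := fun {a b} ha hb => by
              simp only [Set.mem_ofPred_eq, map_mul] at ha hb ⊢
              exact mul_mem ha hb
            add_mem' := fun {a b} ha hb => by
              simp only [Set.mem_ofPred_eq, map_add] at ha hb ⊢
              exact add_mem ha hb
            one_mem' := by simp only [Set.mem_ofPred_eq, map_one]; exact one_mem _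
            zero_mem' := by simp only [Set.mem_ofPred_eq, map_zero]; exact zero_mem _
            algebraMap_mem' := fun c => by
              simp only [Set.mem_ofPred_eq]
              have : ModularCurve.coeffEmb (AlgebraicClosure ℚ) (algebraMap ℚ (LaurentSeries ℚ) c)
                  = algebraMap (AlgebraicClosure ℚ) (LaurentSeries (AlgebraicClosure ℚ))
                    (algebraMap ℚ (AlgebraicClosure ℚ) c) := by
                rw [ModularCurve.coeffEmb, ModularCurve.algebraMap_laurentSeries_eq_single,
                  ModularCurve.algebraMap_laurentSeries_eq_single, ModularCurve.coeffMap_single]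
              rw [this]
              exact IntermediateField.algebraMap_mem _ _ }
        inv_mem' := fun a ha => by
          change ModularCurve.coeffEmb (AlgebraicClosure ℚ) a ∈
            adjoin (AlgebraicClosure ℚ) (genusGens N) at ha
          change ModularCurve.coeffEmb (AlgebraicClosure ℚ) a⁻¹ ∈
            adjoin (AlgebraicClosure ℚ) (genusGens N)
          rw [map_inv₀]
          exact inv_mem ha }
    have hle : ModularCurve.modularFunctionFieldFull N ≤ T := by
      change adjoin ℚ (ModularCurve.divisorExpansions N) ≤ T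
      rw [adjoin_le_iff]
      rintro y ⟨d, hd, hdN, rfl⟩
      exact subset_adjoin _ _ ⟨d, hd, hdN, rfl⟩
    exact hle hx
  · rw [adjoin_le_iff]
    rintro _ ⟨d, hd, hdN, rfl⟩
    exact ModularCurve.coeffEmb_mem_laurentBaseChange _ (ModularCurve.jqd_mem_full N hdN)

/-- `Rsub N`, pushed into `ℚ̄((q))`, is the subalgebra generated by the `j(q^d)`. -/
theorem Rsub_map_val (N : ℕ) [NeZero N] :
    (Rsub N).map (ModularCurve.modularFunctionFieldBar N).val
      = Algebra.adjoin (AlgebraicClosure ℚ) (genusGens N) := by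
  rw [Rsub, AlgHom.map_adjoin]
  congr 1
  ext x
  constructor
  · rintro ⟨_, ⟨d, hd, hdN, rfl⟩, rfl⟩
    exact ⟨d, hd, hdN, rfl⟩
  · rintro ⟨d, hd, hdN, rfl⟩
    exact ⟨jBarD N d hdN, ⟨d, hd, hdN, rfl⟩, rfl⟩

/-- **GEN-11 (4)**: every element of the function field is a quotient of elements of
`Rsub N`. -/
theorem exists_fraction_Rsub (N : ℕ) [NeZero N]
    (f : ↥(ModularCurve.modularFunctionFieldBar N)) :
    ∃ r s : ↥(Rsub N), s ≠ 0 ∧
      f * (s : ↥(ModularCurve.modularFunctionFieldBar N)) = r := by
  have hf : (f : LaurentSeries (AlgebraicClosure ℚ)) ∈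
      adjoin (AlgebraicClosure ℚ) (genusGens N) := by
    rw [← modularFunctionFieldBar_eq_adjoin]; exact f.2
  obtain ⟨r, hr, s, hs, hfrs⟩ := mem_adjoin_iff_div.mp hf
  rw [← Rsub_map_val] at hr hs
  obtain ⟨r', hr', rfl⟩ := hr
  obtain ⟨s', hs', rfl⟩ := hs
  by_cases hs0 : s' = 0
  · refine ⟨0, 1, one_ne_zero, ?_⟩
    have : (f : LaurentSeries (AlgebraicClosure ℚ)) = 0 := by
      rw [hfrs, hs0]; simp
    have hf0 : f = 0 := Subtype.ext this
    simp [hf0]
  · refine ⟨⟨r', hr'⟩, ⟨s', hs'⟩, fun h => hs0 (congrArg Subtype.val h), ?_⟩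
    apply Subtype.ext
    have hs0' : ((ModularCurve.modularFunctionFieldBar N).val s') ≠ 0 := by
      intro h
      exact hs0 (Subtype.ext h)
    simp only [MulMemClass.coe_mul]
    rw [hfrs]
    exact div_mul_cancel₀ _ hs0'

end Fermat.Agent.H7
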